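import Mathlib

set_option autoImplicit false

namespace Fermat.Agent.S53_helper36

open Module TensorProduct

section Burnside

variable {K : Type*} [Field K] {V : Type*} [AddCommGroup V] [Module K V]
  {G : Type*} [Monoid G]

/-- The span of the image of a monoid hom into `End K V`, as a subalgebra. -/
noncomputable def spanAlg (r : G →* Module.End K V) : Subalgebra K (Module.End K V) :=
  Algebra.adjoin K (Set.range r)

theorem spanAlg_toSubmodule (r : G →* Module.End K V) :
    Subalgebra.toSubmodule (spanAlg r) = Submodule.span K (Set.range r) := by
  unfold spanAlg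
  rw [Algebra.adjoin_eq_span]
  congr 1
  have : (Submonoid.closure (Set.range r) : Set (Module.End K V)) = Set.range r := by
    rw [← MonoidHom.coe_mrange, Submonoid.closure_eq]
  exact this

theorem mem_spanAlg_iff (r : G →* Module.End K V) (f : Module.End K V) :
    f ∈ spanAlg r ↔ f ∈ Submodule.span K (Set.range r) := by
  rw [← spanAlg_toSubmodule]; rfl

theorem isSimpleModule_spanAlg [Nontrivial V] (r : G →* Module.End K V)
    (hirr : ∀ W : Submodule K V, (∀ g, ∀ x ∈ W, r g x ∈ W) → W = ⊥ ∨ W = ⊤) :
    IsSimpleModule (spanAlg r) V := by
  rw [isSimpleModule_iff]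
  refine { exists_pair_ne := ⟨⊥, ⊤, bot_ne_top⟩, eq_bot_or_eq_top := fun W => ?_ }
  have h := hirr (W.restrictScalars K) (fun g x hx => by
    have hg : r g ∈ spanAlg r := Algebra.subset_adjoin ⟨g, rfl⟩
    exact W.smul_mem (⟨r g, hg⟩ : spanAlg r) hx)
  rcases h with h | h
  · left
    apply Submodule.restrictScalars_injective K
    rw [h]; rfl
  · right
    apply Submodule.restrictScalars_injective K
    rw [h]; rfl

theorem spanAlg_eq_top_of_isAlgClosed [IsAlgClosed K] [FiniteDimensional K V] [Nontrivial V]
    (r : G →* Module.End K V)
    (hirr : ∀ W : Submodule K V, (∀ g, ∀ x ∈ W, r g x ∈ W) → W = ⊥ ∨ W = ⊤) :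
    spanAlg r = ⊤ := by
  have := isSimpleModule_spanAlg r hirr
  have hbij := IsSimpleModule.algebraMap_end_bijective_of_isAlgClosed (A := spanAlg r) (V := V) K
  have : Module.Finite (Module.End (spanAlg r) V) V := by
    have : Module.Finite K V := inferInstance
    exact Module.Finite.of_restrictScalars_finite K (Module.End (spanAlg r) V) V
  have hsurj := Module.Finite.toModuleEnd_moduleEnd_surjective (R := spanAlg r) (M := V)
  rw [eq_top_iff]
  intro φ _
  let f : Module.End (Module.End (spanAlg r) V) V :=
    { toFun := φ
      map_add' := φ.map_add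
      map_smul' := by
        intro e v
        obtain ⟨c, rfl⟩ := hbij.2 e
        simp only [RingHom.id_apply]
        show φ ((algebraMap K (Module.End (spanAlg r) V) c) v) =
          (algebraMap K (Module.End (spanAlg r) V) c) (φ v)
        simp [Module.algebraMap_end_apply] }
  obtain ⟨a, ha⟩ := hsurj f
  have : (a : Module.End K V) = φ := by
    ext v
    have h2 := congrArg (fun g => g v) ha
    exact h2
  rw [← this]
  exact a.2

/-- **Burnside**: over an algebraically closed field, the operators of an irreducible
finite-dimensional representation span the whole endomorphism algebra. -/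
theorem span_range_eq_top_of_isAlgClosed [IsAlgClosed K] [FiniteDimensional K V]
    (r : G →* Module.End K V)
    (hirr : ∀ W : Submodule K V, (∀ g, ∀ x ∈ W, r g x ∈ W) → W = ⊥ ∨ W = ⊤) :
    Submodule.span K (Set.range r) = ⊤ := by
  rcases subsingleton_or_nontrivial V with hV | hV
  · rw [eq_top_iff]
    intro φ _
    have : φ = 0 := by ext v; exact Subsingleton.elim _ _
    rw [this]; exact Submodule.zero_mem _
  · rw [← spanAlg_toSubmodule, spanAlg_eq_top_of_isAlgClosed r hirr]
    rfl

end Burnside

section Descent

variable {k : Type*} [Field k] {V : Type*} [AddCommGroup V] [Module k V]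
  {G : Type*} [Monoid G]

/-- Descent of the spanning property along a field extension. -/
theorem span_range_eq_top_of_baseChange [FiniteDimensional k V]
    (K : Type*) [Field K] [Algebra k K]
    (r : G →* Module.End k V)
    (h : Submodule.span K (Set.range fun g => (r g).baseChange K) = ⊤) :
    Submodule.span k (Set.range r) = ⊤ := by
  set S : Submodule k (Module.End k V) := Submodule.span k (Set.range r) with hS
  apply Submodule.eq_top_of_finrank_eq
  apply le_antisymm (Submodule.finrank_le S)
  let b := Module.finBasis k S
  let Φ : Module.End k V →ₗ[k] Module.End K (K ⊗[k] V) := LinearMap.baseChangeHom k K V V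
  let c : Fin (finrank k S) → Module.End K (K ⊗[k] V) := fun i => Φ (b i : Module.End k V)
  have key : ∀ x : S, Φ (x : Module.End k V) ∈ Submodule.span K (Set.range c) := by
    intro x
    have hrep := b.sum_repr x
    have h1 : (x : Module.End k V) = ∑ i, (b.repr x i) • (b i : Module.End k V) := by
      have := congrArg (Submodule.subtype S) hrep
      rw [map_sum] at this
      simpa using this.symm
    rw [h1, map_sum]
    refine Submodule.sum_mem _ fun i _ => ?_
    rw [map_smul, ← algebraMap_smul K]
    exact Submodule.smul_mem _ _ (Submodule.subset_span ⟨i, rfl⟩)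
  have hspan : Submodule.span K (Set.range c) = ⊤ := by
    rw [eq_top_iff, ← h, Submodule.span_le]
    rintro _ ⟨g, rfl⟩
    have hg : r g ∈ S := Submodule.subset_span ⟨g, rfl⟩
    exact key ⟨r g, hg⟩
  have h3 : finrank K (Module.End K (K ⊗[k] V)) ≤ finrank k S := by
    have := finrank_range_le_card (R := K) c
    rw [Set.finrank, hspan, finrank_top, Fintype.card_fin] at this
    exact this
  have h4 : finrank K (Module.End K (K ⊗[k] V)) = finrank k (Module.End k V) := by
    rw [Module.finrank_linearMap, Module.finrank_linearMap, Module.finrank_baseChange]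
  rw [← h4]; exact h3

/-- Burnside for absolutely irreducible representations over an arbitrary field:
if the base change to an algebraically closed extension is irreducible,
then the operators span the endomorphism algebra. -/
theorem span_range_eq_top_of_absIrred [FiniteDimensional k V]
    (K : Type*) [Field K] [Algebra k K] [IsAlgClosed K]
    (r : G →* Module.End k V)
    (hirr : ∀ W : Submodule K (K ⊗[k] V),
      (∀ g, ∀ x ∈ W, (r g).baseChange K x ∈ W) → W = ⊥ ∨ W = ⊤) :
    Submodule.span k (Set.range r) = ⊤ := by
  apply span_range_eq_top_of_baseChange K r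
  let rK : G →* Module.End K (K ⊗[k] V) :=
    { toFun := fun g => (r g).baseChange K
      map_one' := by rw [map_one, LinearMap.baseChange_one]
      map_mul' := fun g h => by rw [map_mul, LinearMap.baseChange_mul] }
  exact span_range_eq_top_of_isAlgClosed rK hirr

end Descent

end Fermat.Agent.S53_helper36
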