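import Mathlib

set_option autoImplicit false

namespace Fermat.Agent.S53_helper36
open Module IsLocalRing TensorProduct

section MatrixNakayama

variable {A : Type*} [CommRing A] [IsLocalRing A] {n : Type*} [Fintype n] [DecidableEq n]
  {ι : Type*}

theorem matrix_mem_smul_top_of_entries (D : Matrix n n A)
    (hD : ∀ i j, D i j ∈ maximalIdeal A) :
    D ∈ (maximalIdeal A) • (⊤ : Submodule A (Matrix n n A)) := by
  rw [Matrix.matrix_eq_sum_single D]
  refine Submodule.sum_mem _ fun i _ => Submodule.sum_mem _ fun j _ => ?_
  have : Matrix.single i j (D i j) = (D i j) • Matrix.single i j (1 : A) := by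
    rw [Matrix.smul_single, smul_eq_mul, mul_one]
  rw [this]
  exact Submodule.smul_mem_smul (hD i j) Submodule.mem_top

theorem matrix_span_eq_top_of_residue (r : ι → Matrix n n A)
    (h : Submodule.span (ResidueField A)
      (Set.range fun i => (r i).map (residue A)) = ⊤) :
    Submodule.span A (Set.range r) = ⊤ := by
  set S := Submodule.span A (Set.range r) with hS
  rw [eq_top_iff]
  apply Submodule.le_of_le_smul_of_le_jacobson_bot (I := maximalIdeal A)
    (Module.Finite.fg_top) (maximalIdeal_le_jacobson _)
  intro M _
  have hM : M.map (residue A) ∈ Submodule.span (ResidueField A)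
      (Set.range fun i => (r i).map (residue A)) := by rw [h]; trivial
  obtain ⟨c, hc⟩ := Finsupp.mem_span_range_iff_exists_finsupp.mp hM
  -- lift the coefficients
  choose lift hlift using fun x : ResidueField A => residue_surjective x
  let M' : Matrix n n A := c.sum fun i a => lift a • r i
  have hM' : M' ∈ S := by
    refine Submodule.sum_mem _ fun i _ => Submodule.smul_mem _ _ (Submodule.subset_span ⟨i, rfl⟩)
  have hred : M'.map (residue A) = M.map (residue A) := by
    rw [← hc]
    simp only [M', Finsupp.sum]
    ext a b
    simp [Matrix.map_apply, Matrix.sum_apply, hlift, Matrix.smul_apply]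
  have hD : M - M' ∈ (maximalIdeal A) • (⊤ : Submodule A (Matrix n n A)) := by
    apply matrix_mem_smul_top_of_entries
    intro i j
    rw [← residue_eq_zero_iff]
    have := congrFun (congrFun hred i) j
    simp only [Matrix.map_apply] at this
    rw [Matrix.sub_apply, map_sub, this, sub_self]
  have : M = M' + (M - M') := by abel
  rw [this]
  exact Submodule.add_mem_sup hM' hD

end MatrixNakayama

section EndNakayama

variable {A : Type*} [CommRing A] [IsLocalRing A] {V : Type*} [AddCommGroup V] [Module A V]
  [Module.Free A V] [Module.Finite A V] {ι : Type*}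

theorem end_span_eq_top_of_residual (r : ι → Module.End A V)
    (h : Submodule.span (ResidueField A)
      (Set.range fun i => (r i).baseChange (ResidueField A)) = ⊤) :
    Submodule.span A (Set.range r) = ⊤ := by
  classical
  let b := Module.Free.chooseBasis A V
  let κ := ResidueField A
  let bκ := Algebra.TensorProduct.basis κ b
  let e : Module.End A V ≃ₗ[A] Matrix _ _ A := LinearMap.toMatrix b b
  let eκ : Module.End κ (κ ⊗[A] V) ≃ₗ[κ] Matrix _ _ κ := LinearMap.toMatrix bκ bκ
  have hcompat : ∀ f : Module.End A V, eκ (f.baseChange κ) = (e f).map (residue A) := by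
    intro f
    have := LinearMap.toMatrix_baseChange κ f b b
    rw [IsLocalRing.ResidueField.algebraMap_eq] at this
    exact this
  have h1 : Submodule.span κ (Set.range fun i => (e (r i)).map (residue A)) = ⊤ := by
    have : (fun i => (e (r i)).map (residue A)) = fun i => eκ ((r i).baseChange κ) := by
      funext i; rw [hcompat]
    rw [this]
    have : Set.range (fun i => eκ ((r i).baseChange κ)) =
        eκ '' Set.range (fun i => (r i).baseChange κ) := by
      rw [← Set.range_comp]; rfl
    have hm := Submodule.map_span eκ.toLinearMap
      (Set.range fun i => (r i).baseChange κ)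
    rw [LinearEquiv.coe_coe] at hm
    rw [this, ← hm, h, Submodule.map_top, LinearEquiv.range]
  have h2 := matrix_span_eq_top_of_residue (fun i => e (r i)) h1
  have : Set.range (fun i => e (r i)) = e '' Set.range r := by
    rw [← Set.range_comp]; rfl
  have hm := Submodule.map_span e.toLinearMap (Set.range r)
  rw [LinearEquiv.coe_coe] at hm
  rw [this, ← hm] at h2
  exact (Submodule.map_eq_top_iff (e := e)).mp h2

end EndNakayama

section BaseChangeSpan

variable {R : Type*} [CommRing R] {V : Type*} [AddCommGroup V] [Module R V]
  [Module.Free R V] [Module.Finite R V] {ι : Type*}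

/-- If a family of endomorphisms of a finite free module spans, so does its base change. -/
theorem span_baseChange_eq_top (S : Type*) [CommRing S] [Algebra R S]
    (r : ι → Module.End R V) (h : Submodule.span R (Set.range r) = ⊤) :
    Submodule.span S (Set.range fun i => (r i).baseChange S) = ⊤ := by
  classical
  rcases subsingleton_or_nontrivial R with hR | hR
  · have : Subsingleton S := by
      have : (1 : S) = 0 := by
        rw [← map_one (algebraMap R S), Subsingleton.elim (1 : R) 0, map_zero]
      exact subsingleton_of_zero_eq_one this.symm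
    rw [eq_top_iff]
    intro φ _
    have : Subsingleton (S ⊗[R] V) := Module.subsingleton S _
    have : φ = 0 := by ext v; exact Subsingleton.elim _ _
    rw [this]; exact Submodule.zero_mem _
  let b := Module.Free.chooseBasis R V
  let bS := Algebra.TensorProduct.basis S b
  let e : Module.End R V ≃ₗ[R] Matrix _ _ R := LinearMap.toMatrix b b
  let eS : Module.End S (S ⊗[R] V) ≃ₗ[S] Matrix _ _ S := LinearMap.toMatrix bS bS
  have hcompat : ∀ f : Module.End R V, eS (f.baseChange S) = (e f).map (algebraMap R S) :=
    fun f => LinearMap.toMatrix_baseChange S f b b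
  set T := Submodule.span S (Set.range fun i => (r i).baseChange S) with hT
  have hmem : ∀ ψ : Module.End R V, ψ.baseChange S ∈ T := by
    intro ψ
    have hψ : ψ ∈ Submodule.span R (Set.range r) := by rw [h]; trivial
    induction hψ using Submodule.span_induction with
    | mem x hx =>
      obtain ⟨i, rfl⟩ := hx
      exact Submodule.subset_span ⟨i, rfl⟩
    | zero => rw [LinearMap.baseChange_zero]; exact Submodule.zero_mem _
    | add x y _ _ hx hy => rw [LinearMap.baseChange_add]; exact Submodule.add_mem _ hx hy
    | smul a x _ hx =>
      rw [LinearMap.baseChange_smul, ← algebraMap_smul S]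
      exact Submodule.smul_mem _ _ hx
  rw [eq_top_iff]
  intro φ _
  have hφ : φ = eS.symm (eS φ) := (eS.symm_apply_apply φ).symm
  rw [hφ, Matrix.matrix_eq_sum_single (eS φ), map_sum]
  refine Submodule.sum_mem _ fun i _ => ?_
  rw [map_sum]
  refine Submodule.sum_mem _ fun j _ => ?_
  have h1 : Matrix.single i j (eS φ i j) = (eS φ i j) • Matrix.single i j (1 : S) := by
    rw [Matrix.smul_single, smul_eq_mul, mul_one]
  rw [h1, map_smul]
  refine Submodule.smul_mem _ _ ?_
  have h2 : Matrix.single i j (1 : S) = eS ((e.symm (Matrix.single i j (1 : R))).baseChange S) := by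
    rw [hcompat, LinearEquiv.apply_symm_apply]
    ext a c
    simp [Matrix.map_apply, Matrix.single_apply]
  rw [h2, LinearEquiv.symm_apply_apply]
  exact hmem _

end BaseChangeSpan

section Schur

variable {R : Type*} [CommRing R] {V : Type*} [AddCommGroup V] [Module R V]
  [Module.Free R V] {ι : Type*}

/-- Schur: an endomorphism commuting with a spanning family is a scalar. -/
theorem exists_eq_smul_one_of_commute (r : ι → Module.End R V)
    (h : Submodule.span R (Set.range r) = ⊤) (f : Module.End R V)
    (hf : ∀ i, f * r i = r i * f) : ∃ a : R, f = a • (1 : Module.End R V) := by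
  have hall : ∀ g : Module.End R V, g * f = f * g := by
    intro g
    have hg : g ∈ Submodule.span R (Set.range r) := by rw [h]; trivial
    induction hg using Submodule.span_induction with
    | mem x hx => obtain ⟨i, rfl⟩ := hx; exact (hf i).symm
    | zero => simp
    | add x y _ _ hx hy => rw [add_mul, mul_add, hx, hy]
    | smul a x _ hx => rw [smul_mul_assoc, mul_smul_comm, hx]
  have hc : f ∈ Set.center (Module.End R V) := by
    rw [Semigroup.mem_center_iff]
    exact hall
  obtain ⟨α, hα, rfl⟩ := Module.End.mem_center_iff.mp hc
  refine ⟨α, ?_⟩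
  ext v
  simp [Module.End.smulLeft]

end Schur

section MatrixSchur

variable {R : Type*} [CommRing R] {n : Type*} [Fintype n] [DecidableEq n] {ι : Type*}

theorem matrix_exists_eq_scalar_of_commute (r : ι → Matrix n n R)
    (h : Submodule.span R (Set.range r) = ⊤) (P : Matrix n n R)
    (hP : ∀ i, P * r i = r i * P) : ∃ a : R, P = Matrix.scalar n a := by
  have hall : ∀ g : Matrix n n R, g * P = P * g := by
    intro g
    have hg : g ∈ Submodule.span R (Set.range r) := by rw [h]; trivial
    induction hg using Submodule.span_induction with
    | mem x hx => obtain ⟨i, rfl⟩ := hx; exact (hP i).symm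
    | zero => simp
    | add x y _ _ hx hy => rw [add_mul, mul_add, hx, hy]
    | smul a x _ hx => rw [smul_mul_assoc, mul_smul_comm, hx]
  have hc : P ∈ Set.center (Matrix n n R) := by
    rw [Semigroup.mem_center_iff]
    exact hall
  rw [Matrix.center_eq_range] at hc
  obtain ⟨a, ha⟩ := hc
  exact ⟨a, ha.symm⟩

end MatrixSchur

section FreeFaithful

variable {R : Type*} [CommRing R] {V : Type*} [AddCommGroup V] [Module R V]

theorem eq_zero_of_smul_one_eq_zero [Module.Free R V] [Nontrivial V] (a : R)
    (h : a • (1 : Module.End R V) = 0) : a = 0 := by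
  classical
  let b := Module.Free.chooseBasis R V
  have : Nonempty (Module.Free.ChooseBasisIndex R V) := by
    by_contra hne
    rw [not_nonempty_iff] at hne
    have : Subsingleton V := b.repr.toEquiv.subsingleton
    exact not_subsingleton V this
  obtain ⟨i⟩ := this
  have h1 : a • b i = 0 := by
    have := congrArg (fun f : Module.End R V => f (b i)) h
    simpa using this
  have h2 := congrArg (fun v => b.repr v i) h1
  simpa using h2

end FreeFaithful

end Fermat.Agent.S53_helper36
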