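import Fermat.Prelude.Def_GaloisRep_Adic
import Fermat.Agent.S53_helper36.Burnside
import Fermat.Agent.S53_helper36.SchurLocal

set_option autoImplicit false

namespace Fermat.Agent.S53_helper36
open Module IsLocalRing TensorProduct

section Transfer

variable {R : Type*} [CommRing R] {V₁ V₂ : Type*} [AddCommGroup V₁] [Module R V₁]
  [AddCommGroup V₂] [Module R V₂] {ι : Type*}

theorem span_eq_top_of_intertwine (e : V₁ ≃ₗ[R] V₂) (r₁ : ι → Module.End R V₁)
    (r₂ : ι → Module.End R V₂) (he : ∀ i x, e (r₁ i x) = r₂ i (e x))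
    (h : Submodule.span R (Set.range r₂) = ⊤) : Submodule.span R (Set.range r₁) = ⊤ := by
  have hconj : ∀ i, e.conj (r₁ i) = r₂ i := by
    intro i
    ext x
    rw [LinearEquiv.conj_apply_apply, he, LinearEquiv.apply_symm_apply]
  have : Set.range r₂ = e.conj '' Set.range r₁ := by
    rw [← Set.range_comp]
    congr 1
    funext i
    exact (hconj i).symm
  have hm := Submodule.map_span e.conj.toLinearMap (Set.range r₁)
  rw [LinearEquiv.coe_coe] at hm
  rw [this, ← hm] at h
  exact (Submodule.map_eq_top_iff (e := e.conj)).mp h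

end Transfer

section Residual

variable {k : Type} [Field k]

/-- Burnside for an absolutely irreducible residual representation. -/
theorem ResidualGaloisRep_span_eq_top (ρbar : ResidualGaloisRep k)
    (h : ρbar.IsAbsolutelyIrreducible) :
    Submodule.span k (Set.range ρbar.ρ) = ⊤ := by
  apply span_range_eq_top_of_absIrred (AlgebraicClosure k) ρbar.ρ
  intro W hW
  exact h W hW

variable {A : Type} [CommRing A] [IsLocalRing A]

/-- Nakayama: a lift of an absolutely irreducible residual representation spans. -/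
theorem GaloisRepAdic_span_eq_top (ρbar : ResidualGaloisRep k)
    (h : ρbar.IsAbsolutelyIrreducible) (ι : k →+* ResidueField A) (ρ : GaloisRepAdic A)
    (hρ : ρ.residual.IsEquiv (ρbar.baseChangeAlong ι)) :
    Submodule.span A (Set.range ρ.ρ) = ⊤ := by
  obtain ⟨e⟩ := hρ
  apply end_span_eq_top_of_residual
  let _ : Algebra k (ResidueField A) := ι.toAlgebra
  have h1 := ResidualGaloisRep_span_eq_top ρbar h
  have h2 := span_baseChange_eq_top (ResidueField A) (fun σ => ρbar.ρ σ) h1
  exact span_eq_top_of_intertwine e.toLinearEquiv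
    (fun σ => (ρ.ρ σ).baseChange (ResidueField A))
    (fun σ => (ρbar.ρ σ).baseChange (ResidueField A)) (fun σ x => e.map_apply σ x) h2

end Residual

section SchurGal

variable {A : Type} [CommRing A] [IsLocalRing A]

instance (ρ : GaloisRepAdic A) : Nontrivial ρ.V :=
  Module.nontrivial_of_finrank_eq_succ ρ.finrank_eq

/-- Schur's lemma for a representation whose operators span. -/
theorem GaloisRepAdic_schur (ρ : GaloisRepAdic A)
    (hspan : Submodule.span A (Set.range ρ.ρ) = ⊤) (f : Module.End A ρ.V)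
    (hf : ∀ σ, f * ρ.ρ σ = ρ.ρ σ * f) : ∃ a : A, f = a • (1 : Module.End A ρ.V) :=
  exists_eq_smul_one_of_commute (fun σ => ρ.ρ σ) hspan f hf

/-- Two equivalences between representations whose operators span differ by a unit scalar. -/
theorem GaloisRepAdic_equiv_unique (ρ₁ ρ₂ : GaloisRepAdic A)
    (hspan : Submodule.span A (Set.range ρ₁.ρ) = ⊤) (e₁ e₂ : GaloisRepAdic.Equiv ρ₁ ρ₂) :
    ∃ u : Aˣ, ∀ x, e₂.toLinearEquiv x = u • e₁.toLinearEquiv x := by
  let f : Module.End A ρ₁.V := (e₁.toLinearEquiv.symm.toLinearMap) ∘ₗ e₂.toLinearEquiv.toLinearMap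
  let g : Module.End A ρ₁.V := (e₂.toLinearEquiv.symm.toLinearMap) ∘ₗ e₁.toLinearEquiv.toLinearMap
  have hf : ∀ σ, f * ρ₁.ρ σ = ρ₁.ρ σ * f := by
    intro σ
    ext x
    show e₁.toLinearEquiv.symm (e₂.toLinearEquiv (ρ₁.ρ σ x)) =
      ρ₁.ρ σ (e₁.toLinearEquiv.symm (e₂.toLinearEquiv x))
    apply e₁.toLinearEquiv.injective
    rw [LinearEquiv.apply_symm_apply, e₂.map_apply, e₁.map_apply, LinearEquiv.apply_symm_apply]
  have hg : ∀ σ, g * ρ₁.ρ σ = ρ₁.ρ σ * g := by
    intro σ
    ext x
    show e₂.toLinearEquiv.symm (e₁.toLinearEquiv (ρ₁.ρ σ x)) =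
      ρ₁.ρ σ (e₂.toLinearEquiv.symm (e₁.toLinearEquiv x))
    apply e₂.toLinearEquiv.injective
    rw [LinearEquiv.apply_symm_apply, e₁.map_apply, e₂.map_apply, LinearEquiv.apply_symm_apply]
  obtain ⟨a, ha⟩ := GaloisRepAdic_schur ρ₁ hspan f hf
  obtain ⟨b, hb⟩ := GaloisRepAdic_schur ρ₁ hspan g hg
  have hfg : f * g = 1 := by
    ext x
    show e₁.toLinearEquiv.symm (e₂.toLinearEquiv (e₂.toLinearEquiv.symm (e₁.toLinearEquiv x))) = x
    rw [LinearEquiv.apply_symm_apply, LinearEquiv.symm_apply_apply]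
  have hab : a * b = 1 := by
    have h00 : (a * b) • (1 : Module.End A ρ₁.V) = 1 := by
      have : (a • (1 : Module.End A ρ₁.V)) * (b • (1 : Module.End A ρ₁.V)) = (a * b) • 1 := by
        rw [smul_mul_smul_comm, one_mul]
      rw [← this, ← ha, ← hb, hfg]
    have h0 : (a * b - 1) • (1 : Module.End A ρ₁.V) = 0 := by
      rw [sub_smul, one_smul, h00, sub_self]
    have := eq_zero_of_smul_one_eq_zero (V := ρ₁.V) _ h0
    exact sub_eq_zero.mp this
  refine ⟨⟨a, b, hab, by rw [mul_comm]; exact hab⟩, fun x => ?_⟩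
  have h1 : f x = a • x := by rw [ha]; simp
  show e₂.toLinearEquiv x = a • e₁.toLinearEquiv x
  rw [← map_smul, ← h1]
  show e₂.toLinearEquiv x = e₁.toLinearEquiv (e₁.toLinearEquiv.symm (e₂.toLinearEquiv x))
  rw [LinearEquiv.apply_symm_apply]

end SchurGal

end Fermat.Agent.S53_helper36
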