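import Fermat.Agent.S53_helper36.RigidInst
import Fermat.Agent.S53_helper96.RigidData

set_option autoImplicit false
set_option linter.unusedSectionVars false

noncomputable section

namespace Fermat.Agent.S53_helper36

open Fermat.Agent.S53_helper35 Fermat.Agent.S53_helper96 Fermat.Agent.S53_helper61 IsLocalRing GaloisRep
open Fermat.Agent.S53.ProRep

section Final

variable (𝒪 : Type) [CommRing 𝒪] [IsDomain 𝒪] [IsDiscreteValuationRing 𝒪]
  [IsAdicComplete (maximalIdeal 𝒪) 𝒪] [Finite (ResidueField 𝒪)]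
  (ρbar : ResidualGaloisRep (ResidueField 𝒪))
  (𝒟 : ∀ ⦃A : Type⦄ [CommRing A] [IsLocalRing A] [Algebra 𝒪 A], GaloisRepAdic A → Prop)

/-- A rigidification datum for an absolutely irreducible residual representation. -/
theorem exists_datum (habs : ρbar.IsAbsolutelyIrreducible) :
    ∃ (b : Module.Basis (Fin 2) (ResidueField 𝒪) ρbar.V) (D : Datum 𝒪),
      D.rbar = toMatRes ρbar b := by
  obtain ⟨b, g0, g1, i, j, h00, h10, hcomm⟩ :=
    exists_rigid_data (AlgebraicClosure (ResidueField 𝒪)) ρbar.finrank_eq ρbar.ρ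
      (fun U hU => habs U hU)
  have hsurj : ∀ (σ : GQ) (a c : Fin 2), ∃ o : 𝒪, residue 𝒪 o = toMatRes ρbar b σ a c :=
    fun σ a c => residue_surjective _
  choose rt hrt using hsurj
  exact ⟨b, ⟨toMatRes ρbar b, resCont_toMatRes ρbar b, fun σ => Matrix.of (rt σ),
    fun σ a c => hrt σ a c, g0, g1, i, j, h00, h10, hcomm⟩, rfl⟩

variable {𝒪 ρbar 𝒟}

/-- Membership in the rigid family gives a good level in the sense of helper61. -/
theorem goodLevel_of_mem_family {D : Datum 𝒪} {I : Ideal (Fermat.Agent.S53_helper96.Lam 𝒪)}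
    (hI : I ∈ Family D 𝒟) : GoodLevel 𝒟 I := by
  obtain ⟨hIM, ⟨n, hn⟩, hfin, hloc, r, hr, hrig⟩ := hI
  have := hfin
  have := hloc
  refine ⟨hloc, isArtinianTestAlgebra_quot D hn, r, hrig.cont, fun σ i j => ?_, hrig.type⟩
  rw [hr σ]
  rfl

/-- The normalisation relations hold in every member of the family. -/
theorem mem_of_mem_family {D : Datum 𝒪} {I : Ideal (Fermat.Agent.S53_helper96.Lam 𝒪)}
    (hI : I ∈ Family D 𝒟) :
    (MvPolynomial.X (D.g0, 0, 0) : Fermat.Agent.S53_helper96.Lam 𝒪) ∈ I ∧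
    (MvPolynomial.X (D.g0, 1, 0) - 1 : Fermat.Agent.S53_helper96.Lam 𝒪) ∈ I ∧
    (MvPolynomial.X (D.g1, D.i, D.j) - algebraMap 𝒪 _ (D.rt D.g1 D.i D.j) :
      Fermat.Agent.S53_helper96.Lam 𝒪) ∈ I := by
  obtain ⟨hIM, ⟨n, hn⟩, hfin, hloc, r, hr, hrig⟩ := hI
  have h00 := hrig.norm.n00
  have h10 := hrig.norm.n10
  have hij := hrig.norm.nij
  rw [hr] at h00 h10 hij
  rw [taut_apply] at h00 h10 hij
  refine ⟨Ideal.Quotient.eq_zero_iff_mem.1 h00, ?_, ?_⟩
  · rw [← Ideal.Quotient.eq_zero_iff_mem, map_sub, h10, map_one, sub_self]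
  · rw [← Ideal.Quotient.eq_zero_iff_mem, map_sub, hij, sub_eq_zero]
    rfl

theorem u_eq_zero_of_forall_mem {R : Type} [CommRing R] [IsLocalRing R] [Algebra 𝒪 R]
    [IsHausdorff (maximalIdeal R) R] (u : Fermat.Agent.S53_helper96.Lam 𝒪 →ₐ[𝒪] R)
    (p : Fermat.Agent.S53_helper96.Lam 𝒪)
    (hp : ∀ n, 1 ≤ n →
      p ∈ RingHom.ker ((Ideal.Quotient.mkₐ 𝒪 (maximalIdeal R ^ n)).comp u)) : u p = 0 := by
  apply eq_zero_of_forall_mem_pow'
  intro n
  rcases Nat.eq_zero_or_pos n with hn | hn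
  · rw [hn, pow_zero, Ideal.one_eq_top]
    trivial
  · have h1 := hp n hn
    rw [RingHom.mem_ker] at h1
    exact Ideal.Quotient.eq_zero_iff_mem.1 h1

variable (𝒪 ρbar 𝒟)

/-- **S53** via the rigid route. -/
theorem nonempty_deformationRingData
    (habs : ρbar.IsAbsolutelyIrreducible) (h𝒟 : IsDeformationCondition 𝒪 𝒟)
    (hbar : 𝒟 (GaloisRepAdic.ofResidualGaloisRep ρbar)) (hfin : TangentFinite 𝒪 ρbar 𝒟) :
    Nonempty (DeformationRingData 𝒪 ρbar 𝒟) := by
  obtain ⟨b, D, hb⟩ := exists_datum 𝒪 ρbar habs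
  -- `hbar` in matrix form
  have hbar' : 𝒟 (ofMat D.rbar (matCont_of_resCont D.hrbar)) := by
    refine h𝒟.of_isEquiv isArtinianTestAlgebra_residueField ?_ hbar
    have e := equivOfMatToMat (GaloisRepAdic.ofResidualGaloisRep ρbar) b
    have h1 : toMat (GaloisRepAdic.ofResidualGaloisRep ρbar) b = D.rbar := by
      rw [hb]
      rfl
    obtain ⟨e'⟩ := isEquiv_ofMat_of_eq (matCont_toMat _ _) (matCont_of_resCont D.hrbar) h1
    exact ⟨e.trans e'⟩
  have hadm := family_isAdmissible ρbar b hb h𝒟 hbar' hfin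
  obtain ⟨R, _, _, _, _, _, _, u, hRres, hdense, hlevels, hmap⟩ := exists_proRepresenting hadm
  have hgood : ∀ n, 1 ≤ n → GoodLevel 𝒟 (levelKer u n) := fun n hn =>
    goodLevel_of_mem_family (hlevels n hn)
  have hev : ∀ σ i j, evk D (MvPolynomial.X (σ, i, j)) = toMatRes ρbar b σ i j := by
    intro σ i j
    rw [← hb]
    exact evA_X _ σ i j
  have hle : levelKer u 1 ≤ RingHom.ker (evk D : Fermat.Agent.S53_helper96.Lam 𝒪 →+* ResidueField 𝒪) :=
    Family.le (hlevels 1 le_rfl)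
  obtain ⟨runiv, hcont, hruniv, hD, -⟩ :=
    exists_univRep h𝒟 hRres u hdense hgood ρbar b (evk D) hev hle
  -- `runiv` lifts `rbar`
  have hliftMod : LiftsMod D (fun g => runiv g) := by
    intro σ i j
    have h1 := residue_u_eq u (hdense 1) (evk D) hle (MvPolynomial.X (σ, i, j))
    show runiv σ i j - algebraMap 𝒪 R (D.rt σ i j) ∈ maximalIdeal R
    rw [← residue_eq_zero_iff, map_sub, sub_eq_zero, hruniv, h1]
    have h2 : evk D (MvPolynomial.X (σ, i, j)) = D.rbar σ i j := evA_X _ σ i j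
    rw [h2, ← D.hrt σ i j, ResidueField.map_residue]
  -- `runiv` is normalised
  have hnorm : IsNormalised D (fun g => runiv g) := by
    refine ⟨?_, ?_, ?_⟩
    · show runiv D.g0 0 0 = 0
      rw [hruniv]
      exact u_eq_zero_of_forall_mem u _ fun n hn => (mem_of_mem_family (hlevels n hn)).1
    · show runiv D.g0 1 0 = 1
      rw [hruniv]
      have := u_eq_zero_of_forall_mem u _ fun n hn => (mem_of_mem_family (hlevels n hn)).2.1
      rw [map_sub, map_one, sub_eq_zero] at this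
      exact this
    · show runiv D.g1 D.i D.j = algebraMap 𝒪 R (D.rt D.g1 D.i D.j)
      rw [hruniv]
      have := u_eq_zero_of_forall_mem u _ fun n hn => (mem_of_mem_family (hlevels n hn)).2.2
      rw [map_sub, AlgHom.commutes, sub_eq_zero] at this
      exact this
  refine nonempty_deformationRingData_of_rigid_universal 𝒪 ρbar 𝒟 habs h𝒟 b D.rbar hb
    (rigidFramework D) (Family D 𝒟) ?_ R hRres u hdense ?_ runiv hruniv hcont
    (liftsRes_of_liftsMod D hliftMod) ⟨hliftMod, hnorm⟩ hD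
  · intro B _ _ _ hB r hr hlift hrig hDr
    have := hB.isLocalHom
    exact ker_evA_mem_Family h𝒟 hB ⟨hrig.1, hr, hrig.2, hDr⟩
  · intro A _ _ _ _ _ _ _ φ hφ
    exact hmap A φ hφ

end Final

end Fermat.Agent.S53_helper36
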