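import Fermat.Agent.S53_helper36.Universal
import Fermat.Agent.S53_helper96.Admissible
import Fermat.Agent.S53_helper61.UnivRep
import Fermat.Agent.S53.ProRep.Main

/-!
# S53: instantiation of the rigid route

`RigidFramework` from helper96's `Datum`, and the final assembly:
`exists_rigid_data` (helper96) → `family_isAdmissible` (helper96) → `exists_proRepresenting`
(helper17) → `exists_univRep` (helper61) → `nonempty_deformationRingData_of_rigid_universal`.
-/

set_option autoImplicit false
set_option linter.unusedSectionVars false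

noncomputable section

namespace Fermat.Agent.S53_helper36

open Fermat.Agent.S53_helper35 Fermat.Agent.S53_helper96 IsLocalRing GaloisRep

section Inst

variable {𝒪 : Type} [CommRing 𝒪] [IsLocalRing 𝒪] (D : Datum 𝒪)
variable {A : Type} [CommRing A] [IsLocalRing A] [Algebra 𝒪 A]

theorem liftsRes_of_liftsMod {r : GQ → Matrix (Fin 2) (Fin 2) A} (h : LiftsMod D r) :
    LiftsRes 𝒪 (fun g => D.rbar g) r :=
  fun g i j => ⟨D.rt g i j, D.hrt g i j, h g i j⟩

theorem liftsMod_of_liftsRes [IsLocalHom (algebraMap 𝒪 A)]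
    {r : GQ → Matrix (Fin 2) (Fin 2) A} (h : LiftsRes 𝒪 (fun g => D.rbar g) r) :
    LiftsMod D r := by
  intro g i j
  obtain ⟨o, ho, hmem⟩ := h g i j
  have h1 : o - D.rt g i j ∈ maximalIdeal 𝒪 := by
    rw [← residue_eq_zero_iff, map_sub, ho, D.hrt, sub_self]
  have h2 : algebraMap 𝒪 A (o - D.rt g i j) ∈ maximalIdeal A :=
    map_nonunit (algebraMap 𝒪 A) _ h1
  have h3 := (maximalIdeal A).add_mem hmem h2
  rw [map_sub] at h3
  have e : r g i j - algebraMap 𝒪 A o + (algebraMap 𝒪 A o - algebraMap 𝒪 A (D.rt g i j))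
      = r g i j - algebraMap 𝒪 A (D.rt g i j) := by ring
  rwa [e] at h3

theorem residue_eq_of_liftsMod [IsLocalHom (algebraMap 𝒪 A)]
    {r : GQ → Matrix (Fin 2) (Fin 2) A} (h : LiftsMod D r) (g : GQ) (i j : Fin 2) :
    residue A (r g i j) = ResidueField.map (algebraMap 𝒪 A) (D.rbar g i j) := by
  have h1 := h g i j
  rw [← residue_eq_zero_iff, map_sub, sub_eq_zero] at h1
  rw [h1, ← D.hrt g i j, ResidueField.map_residue]

/-- The rigid framework attached to helper96's rigidification datum. -/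
def rigidFramework : RigidFramework 𝒪 (fun g => D.rbar g) where
  Rig := fun A _ _ _ r => LiftsMod D r ∧ IsNormalised D r
  map := fun A B _ _ _ _ _ _ φ hφ r h => ⟨h.1.map φ hφ, h.2.map φ⟩
  eq_of_conj := fun A _ _ _ r r' h h' M hM hc => eq_of_conj h.1 h'.1 h.2 h'.2 M hM hc
  exists_conj := by
    intro A _ _ _ _ _ r hlift
    have hl : LiftsMod D r := liftsMod_of_liftsRes D hlift
    have hX0 : residue A (r D.g0 0 0) = 0 := by
      rw [residue_eq_of_liftsMod D hl, D.h00, map_zero]
    have hX1 : residue A (r D.g0 1 0) = 1 := by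
      rw [residue_eq_of_liftsMod D hl, D.h10, map_one]
    have hc : residue A (r D.g1 D.i D.j) = residue A (algebraMap 𝒪 A (D.rt D.g1 D.i D.j)) := by
      have h1 := hl D.g1 D.i D.j
      rw [← residue_eq_zero_iff, map_sub, sub_eq_zero] at h1
      exact h1
    have hu : residue A ((r D.g0 * r D.g1 - r D.g1 * r D.g0) D.i D.j) ≠ 0 := by
      have h1 := hl.isUnit_comm hl
      have h2 : (r D.g0 * r D.g1 - r D.g1 * r D.g0) D.i D.j
          = -((r D.g1 * r D.g0 - r D.g0 * r D.g1) D.i D.j) := by
        rw [← Matrix.neg_apply, neg_sub]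
      rw [h2]
      intro h0
      rw [residue_eq_zero_iff] at h0
      exact (mem_maximalIdeal _).1 h0 h1.neg
    obtain ⟨P, Pi, hPPi, hPiP, hP1, hPi1, h00, h10, hij⟩ :=
      exists_rigidify (r D.g0) (r D.g1) D.i D.j (algebraMap 𝒪 A (D.rt D.g1 D.i D.j))
        hX0 hX1 hc hu
    have hcong : ∀ g i j, (P * r g * Pi) i j - r g i j ∈ maximalIdeal A := by
      intro g i j
      rw [← residue_eq_zero_iff, map_sub, sub_eq_zero]
      exact map_conj_apply (residue A) hP1 hPi1 (r g) i j
    refine ⟨P, Pi, hPPi, hPiP, hcong, ?_, ⟨h00, h10, hij⟩⟩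
    intro g i j
    have h3 := (maximalIdeal A).add_mem (hcong g i j) (hl g i j)
    rwa [sub_add_sub_cancel] at h3

end Inst

end Fermat.Agent.S53_helper36
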