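import Mathlib
import Fermat.Prelude.Def_GaloisRep_DeformationRingData
import Fermat.Prelude.Def_GaloisRep_DeformationCondition
import Fermat.Agent.S53_helper35.MatDict

/-!
# S53, outer layer O6: the universal property

From an abstract "rigid" pro-representing package `(R, u : Λ →ₐ[𝒪] R, r^univ)` we build
`GaloisRep.DeformationRingData`.  Everything is stated against an abstract rigidification
predicate (`RigidFramework`), so that it applies to any normal form.
-/

set_option autoImplicit false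
set_option linter.unusedSectionVars false

noncomputable section

namespace Fermat.Agent.S53_helper36

open Fermat.Agent.S53_helper35 IsLocalRing

/-! ### Generalities on local algebras -/

section General

variable {𝒪 : Type} [CommRing 𝒪] [IsLocalRing 𝒪]

/-- An `𝒪`-algebra homomorphism into a local `𝒪`-algebra `A` with `𝒪 → A` local and
`𝒪 → A / 𝔪` surjective is automatically local. -/
theorem isLocalHom_of_residue_surjective {R A : Type} [CommRing R] [IsLocalRing R] [Algebra 𝒪 R]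
    [CommRing A] [IsLocalRing A] [Algebra 𝒪 A] [IsLocalHom (algebraMap 𝒪 A)]
    (hA : Function.Surjective (residue A ∘ algebraMap 𝒪 A)) (ψ : R →ₐ[𝒪] A) :
    IsLocalHom (ψ : R →+* A) := by
  constructor
  intro x hx
  by_contra hnu
  have hxm : x ∈ maximalIdeal R := (mem_maximalIdeal x).2 hnu
  obtain ⟨a, ha⟩ := hA (residue A (ψ x))
  have h1 : ψ x - algebraMap 𝒪 A a ∈ maximalIdeal A := by
    rw [← residue_eq_zero_iff, map_sub, sub_eq_zero]
    exact ha.symm
  have h2 : IsUnit (algebraMap 𝒪 A a) := by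
    by_contra h
    have h' : algebraMap 𝒪 A a ∈ maximalIdeal A := (mem_maximalIdeal _).2 h
    have h'' := (maximalIdeal A).add_mem h1 h'
    rw [sub_add_cancel] at h''
    exact (mem_maximalIdeal _).1 h'' hx
  have h3 : IsUnit a := isUnit_of_map_unit (algebraMap 𝒪 A) a h2
  have h4 : IsUnit (x - algebraMap 𝒪 R a) := by
    by_contra h
    have h5 : x - algebraMap 𝒪 R a ∈ maximalIdeal R := (mem_maximalIdeal _).2 h
    have h6 := (maximalIdeal R).sub_mem hxm h5
    rw [sub_sub_cancel] at h6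
    exact (mem_maximalIdeal _).1 h6 (h3.map (algebraMap 𝒪 R))
  have h6 := h4.map (ψ : R →+* A)
  rw [map_sub] at h6
  have h7 : (ψ : R →+* A) (algebraMap 𝒪 R a) = algebraMap 𝒪 A a := ψ.commutes a
  rw [h7] at h6
  exact (mem_maximalIdeal _).1 h1 h6

/-- Two local `𝒪`-algebra homomorphisms `R → A` into a separated local ring which agree on a
dense subalgebra are equal. -/
theorem algHom_ext_of_dense {Λ R A : Type} [CommRing Λ] [Algebra 𝒪 Λ] [CommRing R]
    [IsLocalRing R] [Algebra 𝒪 R] [CommRing A] [IsLocalRing A] [Algebra 𝒪 A]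
    [IsHausdorff (maximalIdeal A) A] (u : Λ →ₐ[𝒪] R)
    (hu : ∀ n, Function.Surjective ((Ideal.Quotient.mkₐ 𝒪 (maximalIdeal R ^ n)).comp u))
    (ψ₁ ψ₂ : R →ₐ[𝒪] A) (h₁ : IsLocalHom (ψ₁ : R →+* A)) (h₂ : IsLocalHom (ψ₂ : R →+* A))
    (h : ψ₁.comp u = ψ₂.comp u) : ψ₁ = ψ₂ := by
  refine AlgHom.ext fun x => ?_
  rw [← sub_eq_zero]
  refine IsHausdorff.haus' (I := maximalIdeal A) _ fun n => ?_
  rw [SModEq.zero, smul_eq_mul, Ideal.mul_top]
  obtain ⟨l, hl⟩ := hu n (Ideal.Quotient.mk _ x)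
  have hxl : x - u l ∈ maximalIdeal R ^ n := by
    rw [← Ideal.Quotient.eq]
    exact hl.symm
  have e1 : ψ₁ x - ψ₂ x = ψ₁ (x - u l) - ψ₂ (x - u l) := by
    have := AlgHom.congr_fun h l
    simp only [AlgHom.comp_apply] at this
    rw [map_sub, map_sub, this]
    ring
  rw [e1]
  refine Ideal.sub_mem _ ?_ ?_
  · exact map_maximalIdeal_pow_le (ψ₁ : R →+* A) h₁ n (Ideal.mem_map_of_mem _ hxl)
  · exact map_maximalIdeal_pow_le (ψ₂ : R →+* A) h₂ n (Ideal.mem_map_of_mem _ hxl)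

end General



section Quot

variable {𝒪 : Type} [CommRing 𝒪] [IsLocalRing 𝒪]
variable {A : Type} [CommRing A] [IsLocalRing A]

/-- `A / 𝔪 ^ n` is local for `n ≠ 0`. -/
theorem isLocalRing_quotient_pow (n : ℕ) (hn : n ≠ 0) :
    IsLocalRing (A ⧸ maximalIdeal A ^ n) := by
  have : Nontrivial (A ⧸ maximalIdeal A ^ n) := by
    rw [Ideal.Quotient.nontrivial_iff]
    intro h
    have h1 : maximalIdeal A ^ n ≤ maximalIdeal A := Ideal.pow_le_self hn
    rw [h] at h1
    exact (maximalIdeal.isMaximal A).ne_top (top_le_iff.mp h1)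
  exact .of_surjective' (Ideal.Quotient.mk _) Ideal.Quotient.mk_surjective

theorem isLocalHom_quotient_mk (I : Ideal A) [IsLocalRing (A ⧸ I)] :
    IsLocalHom (Ideal.Quotient.mk I) :=
  IsLocalHom.of_surjective _ Ideal.Quotient.mk_surjective

variable [Algebra 𝒪 A]

/-- `A / 𝔪 ^ n` is an Artinian test algebra. -/
theorem isArtinianTestAlgebra_quotient_pow [IsNoetherianRing A] [IsLocalHom (algebraMap 𝒪 A)]
    (hA : Function.Surjective (residue A ∘ algebraMap 𝒪 A)) (n : ℕ)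
    [IsLocalRing (A ⧸ maximalIdeal A ^ n)] :
    GaloisRep.IsArtinianTestAlgebra 𝒪 (A ⧸ maximalIdeal A ^ n) := by
  have hloc : IsLocalHom (Ideal.Quotient.mk (maximalIdeal A ^ n)) := isLocalHom_quotient_mk _
  refine ⟨?_, ?_, ?_⟩
  · have : algebraMap 𝒪 (A ⧸ maximalIdeal A ^ n) =
        (Ideal.Quotient.mk (maximalIdeal A ^ n)).comp (algebraMap 𝒪 A) := rfl
    rw [this]
    exact RingHom.isLocalHom_comp _ _
  · intro y
    obtain ⟨y', rfl⟩ := residue_surjective y
    obtain ⟨y'', rfl⟩ := Ideal.Quotient.mk_surjective y'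
    obtain ⟨a, ha⟩ := hA (residue A y'')
    refine ⟨a, ?_⟩
    have h1 : y'' - algebraMap 𝒪 A a ∈ maximalIdeal A := by
      rw [← residue_eq_zero_iff, map_sub, sub_eq_zero]
      exact ha.symm
    show residue _ (Ideal.Quotient.mk _ (algebraMap 𝒪 A a)) = residue _ (Ideal.Quotient.mk _ y'')
    rw [eq_comm, ← sub_eq_zero, ← map_sub, ← map_sub, residue_eq_zero_iff]
    exact (mem_maximalIdeal _).2 fun hu =>
      (mem_maximalIdeal _).1 h1 (isUnit_of_map_unit (Ideal.Quotient.mk _) _ hu)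
  · rw [isArtinianRing_iff_isNilpotent_maximalIdeal]
    refine ⟨n, ?_⟩
    rw [Ideal.zero_eq_bot, eq_bot_iff]
    have h2 : maximalIdeal (A ⧸ maximalIdeal A ^ n) =
        (maximalIdeal A).map (Ideal.Quotient.mk (maximalIdeal A ^ n)) := by
      apply le_antisymm
      · intro y hy
        obtain ⟨y', rfl⟩ := Ideal.Quotient.mk_surjective y
        refine Ideal.mem_map_of_mem _ ((mem_maximalIdeal _).2 fun hu => ?_)
        exact (mem_maximalIdeal _).1 hy (hu.map _)
      · rw [Ideal.map_le_iff_le_comap]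
        intro y hy
        exact (mem_maximalIdeal _).2 fun hu =>
          (mem_maximalIdeal _).1 hy (isUnit_of_map_unit (Ideal.Quotient.mk _) _ hu)
    rw [h2, ← Ideal.map_pow, Ideal.map_le_iff_le_comap]
    intro y hy
    rw [Ideal.mem_comap, Ideal.mem_bot, Ideal.Quotient.eq_zero_iff_mem]
    exact hy

end Quot


section Defs

variable (𝒪 : Type) [CommRing 𝒪]

/-- The polynomial ring over `𝒪` on the matrix entries `X (g, i, j)`. -/
abbrev Lam : Type := MvPolynomial (GQ × Fin 2 × Fin 2) 𝒪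

variable {A : Type} [CommRing A] [Algebra 𝒪 A]

/-- Evaluation of the tautological variables at a family of matrices. -/
def evalHom (r : GQ → Matrix (Fin 2) (Fin 2) A) : Lam 𝒪 →ₐ[𝒪] A :=
  MvPolynomial.aeval fun p : GQ × Fin 2 × Fin 2 => r p.1 p.2.1 p.2.2

@[simp] theorem evalHom_X (r : GQ → Matrix (Fin 2) (Fin 2) A) (g : GQ) (i j : Fin 2) :
    evalHom 𝒪 r (MvPolynomial.X (g, i, j)) = r g i j := by
  simp [evalHom]

theorem evalHom_comp {B : Type} [CommRing B] [Algebra 𝒪 B] (φ : A →ₐ[𝒪] B)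
    (r : GQ → Matrix (Fin 2) (Fin 2) A) :
    φ.comp (evalHom 𝒪 r) = evalHom 𝒪 (fun g => (r g).map φ) := by
  refine MvPolynomial.algHom_ext fun p => ?_
  obtain ⟨g, i, j⟩ := p
  simp

theorem algHom_eq_evalHom (φ : Lam 𝒪 →ₐ[𝒪] A) :
    φ = evalHom 𝒪 (fun g => Matrix.of fun i j => φ (MvPolynomial.X (g, i, j))) := by
  refine MvPolynomial.algHom_ext fun p => ?_
  obtain ⟨g, i, j⟩ := p
  simp

variable [IsLocalRing 𝒪] [IsLocalRing A]

/-- `r` reduces to `rbar` modulo the maximal ideal (instance free formulation). -/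
def LiftsRes (rbar : GQ → Matrix (Fin 2) (Fin 2) (ResidueField 𝒪))
    (r : GQ → Matrix (Fin 2) (Fin 2) A) : Prop :=
  ∀ g i j, ∃ o : 𝒪, residue 𝒪 o = rbar g i j ∧ r g i j - algebraMap 𝒪 A o ∈ maximalIdeal A

theorem liftsRes_iff [IsLocalHom (algebraMap 𝒪 A)]
    (rbar : GQ → Matrix (Fin 2) (Fin 2) (ResidueField 𝒪)) (r : GQ → Matrix (Fin 2) (Fin 2) A) :
    LiftsRes 𝒪 rbar r ↔ ∀ g, (r g).map (residue A) =
      (rbar g).map (ResidueField.map (algebraMap 𝒪 A)) := by
  constructor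
  · intro h g
    ext i j
    obtain ⟨o, ho, hmem⟩ := h g i j
    rw [Matrix.map_apply, Matrix.map_apply, ← ho, ResidueField.map_residue]
    rw [← sub_eq_zero, ← map_sub, residue_eq_zero_iff]
    exact hmem
  · intro h g i j
    obtain ⟨o, ho⟩ := residue_surjective (rbar g i j)
    refine ⟨o, ho, ?_⟩
    have h1 := congrFun (congrFun (h g) i) j
    rw [Matrix.map_apply, Matrix.map_apply, ← ho, ResidueField.map_residue] at h1
    rw [← residue_eq_zero_iff, map_sub, sub_eq_zero]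
    exact h1

theorem LiftsRes.map {rbar : GQ → Matrix (Fin 2) (Fin 2) (ResidueField 𝒪)}
    {r : GQ → Matrix (Fin 2) (Fin 2) A} (h : LiftsRes 𝒪 rbar r)
    {B : Type} [CommRing B] [IsLocalRing B] [Algebra 𝒪 B] (φ : A →ₐ[𝒪] B)
    (hφ : IsLocalHom (φ : A →+* B)) : LiftsRes 𝒪 rbar (fun g => (r g).map φ) := by
  intro g i j
  obtain ⟨o, ho, hmem⟩ := h g i j
  refine ⟨o, ho, ?_⟩
  have h1 : (r g).map φ i j - algebraMap 𝒪 B o = φ (r g i j - algebraMap 𝒪 A o) := by
    rw [map_sub, AlgHom.commutes, Matrix.map_apply]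
  rw [h1]
  exact (mem_maximalIdeal _).2 fun hu =>
    (mem_maximalIdeal _).1 hmem (isUnit_of_map_unit (φ : A →+* B) _ hu)

theorem LiftsRes.of_sub_mem {rbar : GQ → Matrix (Fin 2) (Fin 2) (ResidueField 𝒪)}
    {r r' : GQ → Matrix (Fin 2) (Fin 2) A} (h : LiftsRes 𝒪 rbar r)
    (h' : ∀ g i j, r' g i j - r g i j ∈ maximalIdeal A) : LiftsRes 𝒪 rbar r' := by
  intro g i j
  obtain ⟨o, ho, hmem⟩ := h g i j
  refine ⟨o, ho, ?_⟩
  have := (maximalIdeal A).add_mem (h' g i j) hmem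
  rwa [sub_add_sub_cancel] at this

end Defs

/-- An abstract rigidification relative to `rbar`: a predicate `Rig` on matrix families such that
conjugate rigid families are equal and every lift of `rbar` over a complete local ring can be
conjugated (by a matrix congruent to a scalar) into a rigid one. -/
structure RigidFramework (𝒪 : Type) [CommRing 𝒪] [IsLocalRing 𝒪]
    (rbar : GQ → Matrix (Fin 2) (Fin 2) (ResidueField 𝒪)) where
  /-- the normal form predicate -/
  Rig : ∀ ⦃A : Type⦄ [CommRing A] [IsLocalRing A] [Algebra 𝒪 A],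
    (GQ → Matrix (Fin 2) (Fin 2) A) → Prop
  map : ∀ ⦃A B : Type⦄ [CommRing A] [IsLocalRing A] [Algebra 𝒪 A]
    [CommRing B] [IsLocalRing B] [Algebra 𝒪 B] (φ : A →ₐ[𝒪] B), IsLocalHom (φ : A →+* B) →
    ∀ ⦃r : GQ → Matrix (Fin 2) (Fin 2) A⦄, Rig r → Rig (fun g => (r g).map φ)
  eq_of_conj : ∀ ⦃A : Type⦄ [CommRing A] [IsLocalRing A] [Algebra 𝒪 A]
    ⦃r r' : GQ → Matrix (Fin 2) (Fin 2) A⦄, Rig r → Rig r' →
    ∀ M : Matrix (Fin 2) (Fin 2) A, IsUnit M.det → (∀ g, M * r g = r' g * M) → r = r'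
  exists_conj : ∀ ⦃A : Type⦄ [CommRing A] [IsLocalRing A] [Algebra 𝒪 A]
    [IsLocalHom (algebraMap 𝒪 A)] [IsAdicComplete (maximalIdeal A) A]
    (r : GQ → Matrix (Fin 2) (Fin 2) A),
    LiftsRes 𝒪 rbar r →
    ∃ M N : Matrix (Fin 2) (Fin 2) A, M * N = 1 ∧ N * M = 1 ∧
      (∀ g i j, (M * r g * N) i j - r g i j ∈ maximalIdeal A) ∧ Rig (fun g => M * r g * N)

section Main

theorem adicIsEquiv_symm {A : Type} [CommRing A] [IsLocalRing A] {ρ ρ' : GaloisRepAdic A}
    (h : ρ.IsEquiv ρ') : ρ'.IsEquiv ρ := by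
  obtain ⟨e⟩ := h
  exact ⟨e.symm⟩

theorem adicIsEquiv_trans {A : Type} [CommRing A] [IsLocalRing A] {ρ ρ' ρ'' : GaloisRepAdic A}
    (h : ρ.IsEquiv ρ') (h' : ρ'.IsEquiv ρ'') : ρ.IsEquiv ρ'' := by
  obtain ⟨e⟩ := h
  obtain ⟨e'⟩ := h'
  exact ⟨e.trans e'⟩

theorem adicIsEquiv_baseChangeAlong {A B : Type} [CommRing A] [IsLocalRing A] [CommRing B]
    [IsLocalRing B] (φ : A →+* B) (hφ : IsLocalHom φ) {ρ ρ' : GaloisRepAdic A}
    (h : ρ.IsEquiv ρ') : (ρ.baseChangeAlong φ hφ).IsEquiv (ρ'.baseChangeAlong φ hφ) := by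
  obtain ⟨e⟩ := h
  exact ⟨e.baseChangeAlong φ hφ⟩

variable (𝒪 : Type) [CommRing 𝒪] [IsDomain 𝒪] [IsDiscreteValuationRing 𝒪]
  [IsAdicComplete (maximalIdeal 𝒪) 𝒪]
  (ρbar : ResidualGaloisRep (ResidueField 𝒪))
  (𝒟 : ∀ ⦃A : Type⦄ [CommRing A] [IsLocalRing A] [Algebra 𝒪 A], GaloisRepAdic A → Prop)

/-- **O6.** From a rigid pro-representing package to `DeformationRingData`. -/
theorem nonempty_deformationRingData_of_rigid_universal
    (habs : ρbar.IsAbsolutelyIrreducible) (h𝒟 : GaloisRep.IsDeformationCondition 𝒪 𝒟)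
    (b : Module.Basis (Fin 2) (ResidueField 𝒪) ρbar.V)
    (rbar : GQ →* Matrix (Fin 2) (Fin 2) (ResidueField 𝒪)) (hb : rbar = toMatRes ρbar b)
    (F : RigidFramework 𝒪 (fun g => rbar g))
    (𝓘 : Set (Ideal (Lam 𝒪)))
    (hker : ∀ ⦃B : Type⦄ [CommRing B] [IsLocalRing B] [Algebra 𝒪 B],
      GaloisRep.IsArtinianTestAlgebra 𝒪 B →
      ∀ (r : GQ →* Matrix (Fin 2) (Fin 2) B) (hr : MatCont r),
        LiftsRes 𝒪 (fun g => rbar g) (fun g => r g) → F.Rig (fun g => r g) →
        𝒟 (ofMat r hr) → RingHom.ker (evalHom 𝒪 (fun g => r g)) ∈ 𝓘)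
    (R : Type) [CommRing R] [IsLocalRing R] [IsNoetherianRing R]
    [IsAdicComplete (maximalIdeal R) R] [Algebra 𝒪 R] [IsLocalHom (algebraMap 𝒪 R)]
    (hRres : Function.Surjective (residue R ∘ algebraMap 𝒪 R))
    (u : Lam 𝒪 →ₐ[𝒪] R)
    (hdense : ∀ n, Function.Surjective ((Ideal.Quotient.mkₐ 𝒪 (maximalIdeal R ^ n)).comp u))
    (hmap : ∀ (A : Type) [CommRing A] [IsLocalRing A] [IsNoetherianRing A]
      [IsAdicComplete (maximalIdeal A) A] [Algebra 𝒪 A] [IsLocalHom (algebraMap 𝒪 A)],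
      Function.Surjective (residue A ∘ algebraMap 𝒪 A) → ∀ (φ : Lam 𝒪 →ₐ[𝒪] A),
      (∀ n, 1 ≤ n →
        RingHom.ker ((Ideal.Quotient.mkₐ 𝒪 (maximalIdeal A ^ n)).comp φ) ∈ 𝓘) →
      ∃ ψ : R →ₐ[𝒪] A, ψ.comp u = φ)
    (runiv : GQ →* Matrix (Fin 2) (Fin 2) R)
    (hruniv : ∀ g i j, runiv g i j = u (MvPolynomial.X (g, i, j)))
    (hcont : MatCont runiv)
    (hlift : LiftsRes 𝒪 (fun g => rbar g) (fun g => runiv g))
    (hrig : F.Rig (fun g => runiv g)) (hD : 𝒟 (ofMat runiv hcont)) :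
    Nonempty (GaloisRep.DeformationRingData 𝒪 ρbar 𝒟) := by
  classical
  subst hb
  have hrbar : ResCont (toMatRes ρbar b) := resCont_toMatRes ρbar b
  refine ⟨{ R := R, residue_surjective := hRres, absIrr := habs, ρ := ofMat runiv hcont,
            isOfType := hD, residual_isEquiv := ?_, universal := ?_ }⟩
  · -- the residual representation
    have h1 : mapMat (residue R) runiv = mapMat (ResidueField.map (algebraMap 𝒪 R)) (toMatRes ρbar b) := by
      refine MonoidHom.ext fun g => ?_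
      exact (liftsRes_iff 𝒪 _ _).1 hlift g
    obtain ⟨e1⟩ := residual_ofMat_isEquiv_of_eq runiv hcont (toMatRes ρbar b) hrbar _ h1
    obtain ⟨e2⟩ := baseChangeAlong_isEquiv_ofMatRes (ResidueField.map (algebraMap 𝒪 R)) ρbar b
    exact ⟨e1.trans e2.symm⟩
  · intro A _ _ _ _ _ _ hAres ρA hDA hresA
    set ι := ResidueField.map (algebraMap 𝒪 A) with hι
    -- matrix form of `ρA`
    have hresA' : ρA.residual.IsEquiv (ofMatRes (mapMat ι (toMatRes ρbar b)) (resCont_mapMat ι hrbar)) := by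
      obtain ⟨e1⟩ := hresA
      obtain ⟨e2⟩ := baseChangeAlong_isEquiv_ofMatRes ι ρbar b
      exact ⟨e1.trans e2⟩
    obtain ⟨r0, hr0, hρ0, hres0⟩ := exists_ofMat_isEquiv_of_residual ρA (toMatRes ρbar b) hrbar ι hresA'
    have hlift0 : LiftsRes 𝒪 (fun g => toMatRes ρbar b g) (fun g => r0 g) :=
      (liftsRes_iff 𝒪 _ _).2 fun g => DFunLike.congr_fun hres0 g
    obtain ⟨M, N, hMN, hNM, hcong, hrigMN⟩ := F.exists_conj (fun g => r0 g) hlift0
    let P : GL (Fin 2) A := ⟨M, N, hMN, hNM⟩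
    set r1 := conjMat P r0 with hr1_def
    have hr1 : MatCont r1 := matCont_conjMat P hr0
    have hrig1 : F.Rig (fun g => r1 g) := hrigMN
    have hlift1 : LiftsRes 𝒪 (fun g => toMatRes ρbar b g) (fun g => r1 g) := hlift0.of_sub_mem 𝒪 hcong
    have hρ1 : ρA.IsEquiv (ofMat r1 hr1) :=
      adicIsEquiv_trans hρ0 (isEquiv_ofMat_conjMat P hr0)
    -- the classifying map
    obtain ⟨ψ, hψ⟩ := hmap A hAres (evalHom 𝒪 (fun g => r1 g)) (fun n hn => by
      have hloc : IsLocalRing (A ⧸ maximalIdeal A ^ n) := isLocalRing_quotient_pow n (by omega)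
      have hB : GaloisRep.IsArtinianTestAlgebra 𝒪 (A ⧸ maximalIdeal A ^ n) :=
        isArtinianTestAlgebra_quotient_pow hAres n
      set q : A →ₐ[𝒪] A ⧸ maximalIdeal A ^ n := Ideal.Quotient.mkₐ 𝒪 (maximalIdeal A ^ n) with hq
      have hqloc : IsLocalHom (q : A →+* A ⧸ maximalIdeal A ^ n) :=
        isLocalHom_quotient_mk (maximalIdeal A ^ n)
      have hqsurj : Function.Surjective q := Ideal.Quotient.mk_surjective
      rw [evalHom_comp]
      have hrB : MatCont (mapMat (q : A →+* A ⧸ maximalIdeal A ^ n) r1) :=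
        matCont_mapMat _ hqloc hr1
      refine hker hB (mapMat (q : A →+* A ⧸ maximalIdeal A ^ n) r1) hrB
        (hlift1.map 𝒪 q hqloc) (F.map q hqloc hrig1) ?_
      have h1 : 𝒟 (ρA.baseChangeAlong (q : A →+* A ⧸ maximalIdeal A ^ n) hqloc) :=
        (h𝒟.iff_forall_surjective inferInstance hAres ρA).1 hDA hB q hqloc hqsurj
      refine h𝒟.of_isEquiv hB ?_ h1
      exact adicIsEquiv_trans (adicIsEquiv_baseChangeAlong _ hqloc hρ1)
        (baseChangeAlong_ofMat_isEquiv _ hqloc r1 hr1))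
    have hψloc : IsLocalHom (ψ : R →+* A) := isLocalHom_of_residue_surjective hAres ψ
    have hψr : mapMat (ψ : R →+* A) runiv = r1 := by
      refine MonoidHom.ext fun g => ?_
      ext i j
      rw [mapMat_apply, Matrix.map_apply, hruniv]
      have := AlgHom.congr_fun hψ (MvPolynomial.X (g, i, j))
      rw [AlgHom.comp_apply, evalHom_X] at this
      exact this
    refine ⟨ψ, ⟨hψloc, ?_⟩, ?_⟩
    · refine adicIsEquiv_trans (baseChangeAlong_ofMat_isEquiv _ hψloc runiv hcont) ?_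
      refine adicIsEquiv_trans (isEquiv_ofMat_of_eq _ hr1 hψr) (adicIsEquiv_symm hρ1)
    · rintro ψ' ⟨hψ'loc, hψ'⟩
      have hr2 : MatCont (mapMat (ψ' : R →+* A) runiv) := matCont_mapMat _ hψ'loc hcont
      have h2 : (ofMat (mapMat (ψ' : R →+* A) runiv) hr2).IsEquiv (ofMat r1 hr1) :=
        adicIsEquiv_trans (adicIsEquiv_symm (baseChangeAlong_ofMat_isEquiv _ hψ'loc runiv hcont))
          (adicIsEquiv_trans hψ' hρ1)
      obtain ⟨Q, hQ⟩ := (ofMat_isEquiv_iff hr2 hr1).1 h2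
      have hQdet : IsUnit (Q : Matrix (Fin 2) (Fin 2) A).det :=
        (Matrix.isUnit_iff_isUnit_det _).mp Q.isUnit
      have h3 : (fun g => mapMat (ψ' : R →+* A) runiv g) = fun g => r1 g :=
        F.eq_of_conj (F.map ψ' hψ'loc hrig) hrig1 Q hQdet hQ
      have h4 : ψ'.comp u = ψ.comp u := by
        refine MvPolynomial.algHom_ext fun p => ?_
        obtain ⟨g, i, j⟩ := p
        have e1 := congrFun (congrFun (congrFun h3 g) i) j
        have e2 := congrFun (congrFun (DFunLike.congr_fun hψr g) i) j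
        rw [mapMat_apply, Matrix.map_apply, hruniv] at e1 e2
        rw [AlgHom.comp_apply, AlgHom.comp_apply]
        exact e1.trans e2.symm
      exact algHom_ext_of_dense u hdense ψ' ψ hψ'loc hψloc h4

end Main
end Fermat.Agent.S53_helper36
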